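import Fermat.Agent.H21.Es1C.Interfaces
import Fermat.Agent.H97.ParabolicPeriod

/-!
# P-ES1 / ES1-C-PER-B2 (helper1, row 730): periods of `S₂(Γ₁(M))` vanish on parabolic elements

`periodParabolic1 : Fermat.Agent.H21.Es1C.PeriodParabolic1Statement`, unconditional
(port of `Fermat.Agent.H97.ParabolicPeriod`; the key lemma
`const_eq_zero_of_trace_sq_eq_four` is group-independent).
-/

set_option autoImplicit false

namespace Fermat.Agent.H1.ES1

open UpperHalfPlane CongruenceSubgroup Filter Topology ModularCurve ModularCurve.Period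
open Fermat.Agent.H21.Es1C
open scoped MatrixGroups

/-- The period homomorphism of any equivariant primitive (for any subgroup `Γ` of `SL(2,ℤ)`)
with limits at all cusps is parabolic. -/
theorem periodHom_isParabolicHom_gen {Γ : Subgroup SL(2, ℤ)} {F : ℍ → ℂ}
    (hF : IsEquivariantPrimitive Γ F)
    (hlim : ∀ δ : SL(2, ℤ), ∃ L : ℂ, Tendsto (fun w : ℍ => F (δ • w)) atImInfty (𝓝 L)) :
    IsParabolicHom Γ hF.periodHom := by
  intro γ hγ
  rw [IsEquivariantPrimitive.periodHom_apply]
  exact Fermat.Agent.H97.const_eq_zero_of_trace_sq_eq_four F hlim (γ : SL(2, ℤ)) hγ _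
    (fun z => hF.sub_eq_period γ z)

/-- **PER1-B (2)**: periods of cusp forms on `Γ₁(M)` vanish on parabolic elements. -/
theorem periodParabolic1 : PeriodParabolic1Statement := by
  classical
  intro M _ f
  unfold periodMap1
  split_ifs with h
  · exact periodHom_isParabolicHom_gen h.choose_spec.2.2.1 h.choose_spec.2.2.2
  · intro γ _
    rfl

end Fermat.Agent.H1.ES1
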